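import Mathlib
import Fermat.Prelude.Def_GaloisRep_DeformationCondition
import Fermat.Agent.S53.H96.TestAlg

/-!
# S53, helper93: tangent bound for Artinian test algebras

For an Artinian test algebra `A` over a local ring `O` with finite residue field `k`, the number
of `O`-algebra homomorphisms `A → k[ε]` bounds the number of generators of the maximal ideal of
`A` modulo the image of the maximal ideal of `O`.
-/

set_option autoImplicit false
set_option linter.style.haveILetI false
set_option linter.unusedSectionVars false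

namespace Fermat.Agent.S53.H93

open IsLocalRing

open Fermat.Agent.S53.H96 (dualNumberAlgebra)

section

variable {O : Type} [CommRing O] [IsLocalRing O]
variable {A : Type} [CommRing A] [IsLocalRing A] [Algebra O A]

/-- The residue field of an Artinian test algebra is the residue field of the base. -/
theorem residueFieldMap_bijective (hA : GaloisRep.IsArtinianTestAlgebra O A) :
    haveI := hA.isLocalHom
    Function.Bijective (ResidueField.map (algebraMap O A)) := by
  haveI := hA.isLocalHom
  refine ⟨(ResidueField.map (algebraMap O A)).injective, fun y => ?_⟩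
  obtain ⟨c, hc⟩ := hA.residue_surjective y
  exact ⟨residue O c, by rw [ResidueField.map_residue]; exact hc⟩

/-- An Artinian test algebra over a local ring with finite residue field is finite. -/
theorem finite_of_isArtinianTestAlgebra [Finite (ResidueField O)]
    (hA : GaloisRep.IsArtinianTestAlgebra O A) : Finite A := by
  haveI := hA.isLocalHom
  haveI := hA.isArtinian
  haveI : Finite (ResidueField A) :=
    Finite.of_surjective _ (residueFieldMap_bijective hA).2
  have h : Finite (A ⧸ (⊥ : Ideal A)) := by
    rw [IsLocalRing.finite_quotient_iff]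
    obtain ⟨n, hn⟩ := IsArtinianRing.isNilpotent_jacobson_bot (R := A)
    rw [jacobson_eq_maximalIdeal _ bot_ne_top] at hn
    exact ⟨n, le_of_eq hn⟩
  exact Finite.of_equiv _ (RingEquiv.quotientBot A).toEquiv

/-- The canonical `O`-algebra map from an Artinian test algebra to the residue field of `O`. -/
noncomputable def resHom (hA : GaloisRep.IsArtinianTestAlgebra O A) : A →ₐ[O] ResidueField O :=
  haveI := hA.isLocalHom
  { ((RingEquiv.ofBijective _ (residueFieldMap_bijective hA)).symm.toRingHom.comp (residue A)) with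
    commutes' := fun c => by
      have h : residue A (algebraMap O A c) =
          RingEquiv.ofBijective _ (residueFieldMap_bijective hA) (residue O c) := by
        rw [RingEquiv.ofBijective_apply, ResidueField.map_residue]
      simp only [RingHom.toMonoidHom_eq_coe, RingEquiv.toRingHom_eq_coe, OneHom.toFun_eq_coe,
        MonoidHom.toOneHom_coe, MonoidHom.coe_coe, RingHom.coe_comp, RingHom.coe_coe,
        Function.comp_apply]
      rw [h, RingEquiv.symm_apply_apply]
      rfl }

theorem resHom_algebraMap (hA : GaloisRep.IsArtinianTestAlgebra O A) (c : O) :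
    resHom hA (algebraMap O A c) = residue O c := by
  rw [AlgHom.commutes]; rfl

theorem resHom_eq_zero_iff (hA : GaloisRep.IsArtinianTestAlgebra O A) (a : A) :
    resHom hA a = 0 ↔ a ∈ maximalIdeal A := by
  haveI := hA.isLocalHom
  show (RingEquiv.ofBijective _ (residueFieldMap_bijective hA)).symm (residue A a) = 0 ↔ _
  rw [RingEquiv.map_eq_zero_iff, residue_eq_zero_iff]

theorem exists_sub_algebraMap_mem (hA : GaloisRep.IsArtinianTestAlgebra O A) (a : A) :
    ∃ c : O, a - algebraMap O A c ∈ maximalIdeal A ∧ resHom hA a = residue O c := by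
  obtain ⟨c, hc⟩ := hA.residue_surjective (residue A a)
  have h1 : a - algebraMap O A c ∈ maximalIdeal A := by
    rw [← residue_eq_zero_iff, map_sub, sub_eq_zero]
    exact hc.symm
  refine ⟨c, h1, ?_⟩
  rw [← resHom_eq_zero_iff hA, map_sub, sub_eq_zero, resHom_algebraMap] at h1
  exact h1

variable (O A) in
/-- The `O`-submodule `O · 1 + 𝔪_A ^ 2` of `A`. -/
noncomputable def tangentSub : Submodule O A :=
  LinearMap.range (Algebra.linearMap O A) ⊔ ((maximalIdeal A) ^ 2).restrictScalars O

theorem algebraMap_mem_tangentSub (c : O) : algebraMap O A c ∈ tangentSub O A :=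
  Submodule.mem_sup_left ⟨c, rfl⟩

theorem mul_mem_tangentSub {x y : A} (hx : x ∈ maximalIdeal A) (hy : y ∈ maximalIdeal A) :
    x * y ∈ tangentSub O A := by
  refine Submodule.mem_sup_right ?_
  show x * y ∈ maximalIdeal A ^ 2
  rw [pow_two]
  exact Ideal.mul_mem_mul hx hy

theorem algebraMap_mem_maximalIdeal {c : O} (hc : c ∈ maximalIdeal O)
    (hA : GaloisRep.IsArtinianTestAlgebra O A) : algebraMap O A c ∈ maximalIdeal A := by
  haveI := hA.isLocalHom
  rw [mem_maximalIdeal, mem_nonunits_iff] at hc ⊢
  exact fun h => hc (isUnit_of_map_unit (algebraMap O A) c h)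

theorem isTorsionBySet_tangentQuot (hA : GaloisRep.IsArtinianTestAlgebra O A) :
    Module.IsTorsionBySet O (A ⧸ tangentSub O A) (maximalIdeal O : Set O) := by
  rw [Module.isTorsionBySet_quotient_iff]
  intro x r hr
  obtain ⟨c, hc, -⟩ := exists_sub_algebraMap_mem hA x
  have h : r • x = algebraMap O A (r * c) + algebraMap O A r * (x - algebraMap O A c) := by
    rw [Algebra.smul_def, map_mul]; ring
  rw [h]
  exact Submodule.add_mem _ (algebraMap_mem_tangentSub _)
    (mul_mem_tangentSub (algebraMap_mem_maximalIdeal hr hA) hc)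

/-- The `k`-vector space structure on `A / (O + 𝔪_A²)`. -/
@[reducible] noncomputable def tangentModule (hA : GaloisRep.IsArtinianTestAlgebra O A) :
    Module (ResidueField O) (A ⧸ tangentSub O A) :=
  (isTorsionBySet_tangentQuot hA).module

theorem residue_smul_mk (hA : GaloisRep.IsArtinianTestAlgebra O A) (c : O) (x : A ⧸ tangentSub O A) :
    letI := tangentModule hA
    (residue O c) • x = c • x :=
  Module.IsTorsionBySet.mk_smul (isTorsionBySet_tangentQuot hA) c x

/-- The universal "derivation" `A → A / (O + 𝔪_A²)`. -/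
theorem mk_mul (hA : GaloisRep.IsArtinianTestAlgebra O A) (a b : A) :
    letI := tangentModule hA
    (tangentSub O A).mkQ (a * b) =
      resHom hA a • (tangentSub O A).mkQ b + resHom hA b • (tangentSub O A).mkQ a := by
  letI := tangentModule hA
  obtain ⟨c, hc, hrc⟩ := exists_sub_algebraMap_mem hA a
  obtain ⟨c', hc', hrc'⟩ := exists_sub_algebraMap_mem hA b
  rw [hrc, hrc', residue_smul_mk, residue_smul_mk, ← map_smul, ← map_smul, ← map_add,
    Submodule.mkQ_apply, Submodule.mkQ_apply, Submodule.Quotient.eq]
  have h : a * b - (c • b + c' • a) =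
      (a - algebraMap O A c) * (b - algebraMap O A c') + algebraMap O A (- (c * c')) := by
    rw [Algebra.smul_def, Algebra.smul_def, map_neg, map_mul]; ring
  rw [h]
  exact Submodule.add_mem _ (mul_mem_tangentSub hc hc') (algebraMap_mem_tangentSub _)

theorem mkQ_algebraMap (c : O) : (tangentSub O A).mkQ (algebraMap O A c) = 0 := by
  rw [Submodule.mkQ_apply, Submodule.Quotient.mk_eq_zero]
  exact algebraMap_mem_tangentSub c

/-- The `O`-algebra homomorphism `A → k[ε]` attached to a functional on `A / (O + 𝔪_A²)`. -/
noncomputable def homOfFunctional (hA : GaloisRep.IsArtinianTestAlgebra O A)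
    (μ : @Module.Dual (ResidueField O) (A ⧸ tangentSub O A) _ _ (tangentModule hA)) :
    @AlgHom O A (DualNumber (ResidueField O)) _ _ _ _ (dualNumberAlgebra O) :=
  letI := tangentModule hA
  letI := dualNumberAlgebra O
  { toFun := fun a =>
      TrivSqZeroExt.inl (resHom hA a) + TrivSqZeroExt.inr (μ ((tangentSub O A).mkQ a))
    map_one' := by
      have h : (tangentSub O A).mkQ (1 : A) = 0 := by
        rw [← map_one (algebraMap O A)]; exact mkQ_algebraMap 1
      rw [h, map_zero, map_one, TrivSqZeroExt.inr_zero, add_zero, TrivSqZeroExt.inl_one]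
    map_mul' := fun a b => by
      rw [mk_mul hA a b, map_add, map_smul, map_smul, map_mul]
      ext
      · simp
      · simp [mul_comm]
    map_zero' := by
      rw [map_zero, map_zero, map_zero, TrivSqZeroExt.inr_zero, add_zero, TrivSqZeroExt.inl_zero]
    map_add' := fun a b => by
      rw [map_add, map_add, map_add, TrivSqZeroExt.inl_add, TrivSqZeroExt.inr_add]
      abel
    commutes' := fun c => by
      rw [mkQ_algebraMap, map_zero, TrivSqZeroExt.inr_zero, add_zero, resHom_algebraMap]
      rfl }

theorem snd_homOfFunctional (hA : GaloisRep.IsArtinianTestAlgebra O A)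
    (μ : @Module.Dual (ResidueField O) (A ⧸ tangentSub O A) _ _ (tangentModule hA)) (a : A) :
    (homOfFunctional hA μ a).snd = μ ((tangentSub O A).mkQ a) := by
  show (TrivSqZeroExt.inl (resHom hA a) +
    TrivSqZeroExt.inr (μ ((tangentSub O A).mkQ a)) : DualNumber (ResidueField O)).snd = _
  simp

theorem homOfFunctional_injective (hA : GaloisRep.IsArtinianTestAlgebra O A) :
    Function.Injective (homOfFunctional hA) := by
  intro μ ν h
  letI := tangentModule hA
  refine LinearMap.ext fun x => ?_
  obtain ⟨a, rfl⟩ := (tangentSub O A).mkQ_surjective x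
  rw [← snd_homOfFunctional hA μ a, ← snd_homOfFunctional hA ν a, h]

theorem finite_algHom_dualNumber [Finite (ResidueField O)]
    (hA : GaloisRep.IsArtinianTestAlgebra O A) :
    Finite (@AlgHom O A (DualNumber (ResidueField O)) _ _ _ _ (dualNumberAlgebra O)) := by
  letI := dualNumberAlgebra O
  haveI : Finite A := finite_of_isArtinianTestAlgebra hA
  haveI : Finite (DualNumber (ResidueField O)) :=
    inferInstanceAs (Finite (ResidueField O × ResidueField O))
  exact Finite.of_injective (fun f : A →ₐ[O] DualNumber (ResidueField O) => (f : A → _))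
    DFunLike.coe_injective

theorem finrank_tangentQuot_le [Finite (ResidueField O)]
    (hA : GaloisRep.IsArtinianTestAlgebra O A) (d : ℕ)
    (hcard : Nat.card (@AlgHom O A (DualNumber (ResidueField O)) _ _ _ _ (dualNumberAlgebra O)) <
      Nat.card (ResidueField O) ^ (d + 1)) :
    @Module.finrank (ResidueField O) (A ⧸ tangentSub O A) _ _ (tangentModule hA) ≤ d := by
  letI := tangentModule hA
  haveI : Finite A := finite_of_isArtinianTestAlgebra hA
  haveI : Finite (A ⧸ tangentSub O A) := Finite.of_surjective _ (tangentSub O A).mkQ_surjective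
  haveI : Module.Finite (ResidueField O) (A ⧸ tangentSub O A) := Module.Finite.of_finite
  haveI := finite_algHom_dualNumber hA
  have h1 : Nat.card (Module.Dual (ResidueField O) (A ⧸ tangentSub O A)) ≤
      Nat.card (@AlgHom O A (DualNumber (ResidueField O)) _ _ _ _ (dualNumberAlgebra O)) :=
    Nat.card_le_card_of_injective _ (homOfFunctional_injective hA)
  rw [Module.natCard_eq_pow_finrank (K := ResidueField O), Subspace.dual_finrank_eq] at h1
  have h2 := lt_of_le_of_lt h1 hcard
  rw [Nat.pow_lt_pow_iff_right Finite.one_lt_card] at h2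
  omega

/-- Core of the tangent bound: `d` elements of the maximal ideal which, together with the
constants from `𝔪_O`, generate `𝔪_A` modulo `𝔪_A ^ 2` with coefficients in `O`. -/
theorem exists_generators_aux [Finite (ResidueField O)]
    (hA : GaloisRep.IsArtinianTestAlgebra O A) (d : ℕ)
    (hcard : Nat.card (@AlgHom O A (DualNumber (ResidueField O)) _ _ _ _ (dualNumberAlgebra O)) <
      Nat.card (ResidueField O) ^ (d + 1)) :
    ∃ a : Fin d → A, (∀ i, a i ∈ maximalIdeal A) ∧
      ∀ x ∈ maximalIdeal A, ∃ (c : Fin d → O) (e : O), e ∈ maximalIdeal O ∧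
        x - (∑ i, c i • a i - algebraMap O A e) ∈ maximalIdeal A ^ 2 := by
  letI := tangentModule hA
  haveI : Finite A := finite_of_isArtinianTestAlgebra hA
  haveI : Finite (A ⧸ tangentSub O A) := Finite.of_surjective _ (tangentSub O A).mkQ_surjective
  haveI : Module.Finite (ResidueField O) (A ⧸ tangentSub O A) := Module.Finite.of_finite
  have hn := finrank_tangentQuot_le hA d hcard
  set n := Module.finrank (ResidueField O) (A ⧸ tangentSub O A) with hndef
  let b := Module.finBasis (ResidueField O) (A ⧸ tangentSub O A)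
  let v : Fin d → A ⧸ tangentSub O A := fun i => if h : (i : ℕ) < n then b ⟨i, h⟩ else 0
  have hv : Submodule.span (ResidueField O) (Set.range v) = ⊤ := by
    rw [eq_top_iff, ← b.span_eq]
    refine Submodule.span_mono ?_
    rintro _ ⟨j, rfl⟩
    refine ⟨⟨j, lt_of_lt_of_le j.2 hn⟩, ?_⟩
    show (if h : (j : ℕ) < n then b ⟨j, h⟩ else 0) = b j
    rw [dif_pos j.2]
  have hlift : ∀ i, ∃ a ∈ maximalIdeal A, (tangentSub O A).mkQ a = v i := by
    intro i
    obtain ⟨x, hx⟩ := (tangentSub O A).mkQ_surjective (v i)
    obtain ⟨c, hc, -⟩ := exists_sub_algebraMap_mem hA x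
    exact ⟨x - algebraMap O A c, hc, by rw [map_sub, mkQ_algebraMap, sub_zero, hx]⟩
  choose a ha hav using hlift
  refine ⟨a, ha, fun x hx => ?_⟩
  have hx' : (tangentSub O A).mkQ x ∈ Submodule.span (ResidueField O) (Set.range v) := by
    rw [hv]; trivial
  rw [Submodule.mem_span_range_iff_exists_fun] at hx'
  obtain ⟨κ, hκ⟩ := hx'
  choose c hc using fun i => residue_surjective (κ i)
  have h1 : (tangentSub O A).mkQ (∑ i, c i • a i) = (tangentSub O A).mkQ x := by
    rw [← hκ, map_sum]
    refine Finset.sum_congr rfl fun i _ => ?_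
    rw [map_smul, hav, ← hc i, residue_smul_mk]
  rw [Submodule.mkQ_apply, Submodule.mkQ_apply, Submodule.Quotient.eq] at h1
  obtain ⟨y, ⟨e, rfl⟩, z, hz, hyz⟩ := Submodule.mem_sup.mp h1
  rw [Algebra.linearMap_apply] at hyz
  have hz' : z ∈ maximalIdeal A ^ 2 := hz
  have hzm : z ∈ maximalIdeal A := Ideal.pow_le_self two_ne_zero hz'
  have hsumm : ∑ i, c i • a i ∈ maximalIdeal A := by
    refine Ideal.sum_mem _ fun i _ => ?_
    rw [Algebra.smul_def]
    exact Ideal.mul_mem_left _ _ (ha i)
  have hem : algebraMap O A e ∈ maximalIdeal A := by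
    have : algebraMap O A e = ∑ i, c i • a i - x - z := by
      linear_combination hyz
    rw [this]
    exact Ideal.sub_mem _ (Ideal.sub_mem _ hsumm hx) hzm
  have he : e ∈ maximalIdeal O := by
    rw [mem_maximalIdeal, mem_nonunits_iff] at hem ⊢
    exact fun h => hem (h.map _)
  refine ⟨c, e, he, ?_⟩
  have hxeq : x - (∑ i, c i • a i - algebraMap O A e) = -z := by
    linear_combination hyz
  rw [hxeq]
  exact Ideal.neg_mem_iff _ |>.mpr hz'

/-- **Tangent bound** (shape requested for the abstract representability theorem): if an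
Artinian test algebra `A` has fewer than `|k| ^ (d + 1)` algebra maps to the dual numbers, it is
generated as an `O`-algebra by `d` elements of its maximal ideal. -/
theorem exists_generators [Finite (ResidueField O)]
    (hA : GaloisRep.IsArtinianTestAlgebra O A) (d : ℕ)
    (h : Nat.card (@AlgHom O A (DualNumber (ResidueField O)) _ _ _ _
      (Fermat.Agent.S53.H96.dualNumberAlgebra O)) < Nat.card (ResidueField O) ^ (d + 1)) :
    ∃ a : Fin d → A, (∀ i, a i ∈ maximalIdeal A) ∧ Algebra.adjoin O (Set.range a) = ⊤ := by
  obtain ⟨a, ha, hgen⟩ := exists_generators_aux hA d h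
  refine ⟨a, ha, Fermat.Agent.S53.H96.testAlg_subalgebra_eq_top hA _ fun u hu => ?_⟩
  obtain ⟨c, e, -, hce⟩ := hgen u hu
  refine ⟨∑ i, c i • a i - algebraMap O A e, ?_, hce⟩
  refine Subalgebra.sub_mem _ (Subalgebra.sum_mem _ fun i _ => ?_) (Subalgebra.algebraMap_mem _ e)
  exact Subalgebra.smul_mem _ (Algebra.subset_adjoin (Set.mem_range_self i)) (c i)

/-- Ideal-theoretic form of the tangent bound. -/
theorem exists_generators_maximalIdeal [Finite (ResidueField O)]
    (hA : GaloisRep.IsArtinianTestAlgebra O A) (d : ℕ)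
    (hcard : Nat.card (@AlgHom O A (DualNumber (ResidueField O)) _ _ _ _ (dualNumberAlgebra O)) <
      Nat.card (ResidueField O) ^ (d + 1)) :
    ∃ a : Fin d → A, (∀ i, a i ∈ maximalIdeal A) ∧
      maximalIdeal A = (maximalIdeal O).map (algebraMap O A) ⊔ Ideal.span (Set.range a) := by
  haveI := hA.isArtinian
  obtain ⟨a, ha, hgen⟩ := exists_generators_aux hA d hcard
  refine ⟨a, ha, le_antisymm ?_ ?_⟩
  · refine Submodule.le_of_le_smul_of_le_jacobson_bot (I := maximalIdeal A)
      (IsNoetherian.noetherian _) (le_of_eq (jacobson_eq_maximalIdeal ⊥ bot_ne_top).symm) ?_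
    intro x hx
    obtain ⟨c, e, he, hce⟩ := hgen x hx
    have hsum : ∑ i, c i • a i ∈ Ideal.span (Set.range a) := by
      refine Ideal.sum_mem _ fun i _ => ?_
      rw [Algebra.smul_def]
      exact Ideal.mul_mem_left _ _ (Ideal.subset_span ⟨i, rfl⟩)
    have hxeq : x = (∑ i, c i • a i - algebraMap O A e) +
        (x - (∑ i, c i • a i - algebraMap O A e)) := by ring
    rw [hxeq]
    refine Submodule.add_mem_sup (Submodule.sub_mem _ (Submodule.mem_sup_right hsum)
      (Submodule.mem_sup_left (Ideal.mem_map_of_mem _ he))) ?_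
    rw [Ideal.smul_eq_mul, ← pow_two]
    exact hce
  · refine sup_le ?_ (Ideal.span_le.mpr (by rintro _ ⟨i, rfl⟩; exact ha i))
    rw [Ideal.map_le_iff_le_comap]
    exact fun c hc => algebraMap_mem_maximalIdeal hc hA

/-- Variant of `exists_generators_maximalIdeal` when the maximal ideal of `O` is principal. -/
theorem exists_generators_of_span_singleton [Finite (ResidueField O)]
    (hA : GaloisRep.IsArtinianTestAlgebra O A) (ϖ : O)
    (hϖ : maximalIdeal O = Ideal.span {ϖ}) (d : ℕ)
    (hcard : Nat.card (@AlgHom O A (DualNumber (ResidueField O)) _ _ _ _ (dualNumberAlgebra O)) <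
      Nat.card (ResidueField O) ^ (d + 1)) :
    ∃ a : Fin d → A, (∀ i, a i ∈ maximalIdeal A) ∧
      maximalIdeal A = Ideal.span (insert (algebraMap O A ϖ) (Set.range a)) := by
  obtain ⟨a, ha, h⟩ := exists_generators_maximalIdeal hA d hcard
  refine ⟨a, ha, ?_⟩
  rw [h, hϖ, Ideal.map_span, Set.image_singleton, ← Ideal.span_union, Set.singleton_union]

/-- A homomorphism of `O`-algebras into an Artinian test algebra `A` is surjective as soon as
the maximal ideal of `A` is generated by elements of its range. -/
theorem surjective_of_maximalIdeal_eq_span {P : Type} [CommRing P] [Algebra O P]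
    (hA : GaloisRep.IsArtinianTestAlgebra O A) (φ : P →ₐ[O] A) (s : Set P)
    (hs : maximalIdeal A = Ideal.span (φ '' s)) : Function.Surjective φ := by
  haveI := hA.isArtinian
  obtain ⟨N, hN⟩ := IsArtinianRing.isNilpotent_jacobson_bot (R := A)
  rw [jacobson_eq_maximalIdeal _ bot_ne_top, Ideal.zero_eq_bot] at hN
  -- every element is in the range modulo `𝔪 ^ n`, for every `n`
  have key : ∀ n : ℕ, ∀ a : A, ∃ p : P, a - φ p ∈ maximalIdeal A ^ n := by
    intro n
    induction n with
    | zero => intro a; exact ⟨0, by simp⟩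
    | succ n ih =>
      -- elements of the maximal ideal first
      have hm : ∀ x ∈ maximalIdeal A, ∃ p : P, x - φ p ∈ maximalIdeal A ^ (n + 1) := by
        intro x hx
        rw [hs] at hx
        refine Submodule.span_induction (p := fun x _ => ∃ p : P, x - φ p ∈ maximalIdeal A ^ (n + 1))
          ?_ ?_ ?_ ?_ hx
        · rintro _ ⟨t, -, rfl⟩
          exact ⟨t, by simp⟩
        · exact ⟨0, by simp⟩
        · rintro x y - - ⟨p, hp⟩ ⟨q, hq⟩
          refine ⟨p + q, ?_⟩
          have : x + y - φ (p + q) = (x - φ p) + (y - φ q) := by rw [map_add]; ring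
          rw [this]
          exact Ideal.add_mem _ hp hq
        · rintro a x hx' ⟨p, hp⟩
          obtain ⟨q, hq⟩ := ih a
          refine ⟨q * p, ?_⟩
          have hx'' : x ∈ maximalIdeal A := by rw [hs]; exact hx'
          have : a • x - φ (q * p) = (a - φ q) * x + φ q * (x - φ p) := by
            rw [map_mul, smul_eq_mul]; ring
          rw [this, pow_succ]
          exact Ideal.add_mem _ (Ideal.mul_mem_mul hq hx'')
            (by rw [← pow_succ]; exact Ideal.mul_mem_left _ _ hp)
      intro a
      obtain ⟨c, hc, -⟩ := exists_sub_algebraMap_mem hA a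
      obtain ⟨p, hp⟩ := hm _ hc
      refine ⟨algebraMap O P c + p, ?_⟩
      have : a - φ (algebraMap O P c + p) = a - algebraMap O A c - φ p := by
        rw [map_add, AlgHom.commutes]; ring
      rw [this]
      exact hp
  intro a
  obtain ⟨p, hp⟩ := key N a
  rw [hN, Ideal.mem_bot, sub_eq_zero] at hp
  exact ⟨p, hp.symm⟩

end

end Fermat.Agent.S53.H93
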